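/-
Lib/MultRed (architect helper4), MR2 (helper78): CENTERING of a Weierstrass equation with
multiplicative reduction, over a valued field, in ANY residue characteristic.

Setting: `K` a field with a valuation `v`, `W : WeierstrassCurve K` with integral coefficients,
`v Δ < 1`, `v c₄ = 1`.  If `K` is algebraically closed and `2, 3 ≠ 0` in `K`, there are integral
`r, t` such that the translate `transl r t • W` (`x = x' + r`, `y = y' + t`) has
`a₃ = a₄ = 0`, `v a₆ < 1`, `v b₂ = 1`  (the node of the reduction is at `(0, 0)`), and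
`T² + a₁ T - a₂` has two integral roots `α, β` with `v (α - β) = 1` (the tangent directions).
`(r, t)`, `α`, `β` are fixed by every ring endomorphism `σ` of `K` that fixes the coefficients of
`W` and acts trivially modulo the maximal ideal (inertia).
-/
import Mathlib
import Fermat.Agent.S05.H5.RedB

set_option autoImplicit false

namespace Fermat.Agent.MultRed

open WeierstrassCurve S05H5

variable {K : Type*} [Field K] {Γ₀ : Type*} [LinearOrderedCommGroupWithZero Γ₀]

/-- The translation `x = x' + r`, `y = y' + t`. -/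
def transl (r t : K) : VariableChange K := ⟨1, r, 0, t⟩

section formulas

variable (W : WeierstrassCurve K) (r t : K)

theorem transl_a₁ : (transl r t • W).a₁ = W.a₁ := by
  simp [transl, variableChange_a₁]

theorem transl_a₂ : (transl r t • W).a₂ = W.a₂ + 3 * r := by
  simp [transl, variableChange_a₂]

theorem transl_a₃ : (transl r t • W).a₃ = W.a₃ + r * W.a₁ + 2 * t := by
  simp [transl, variableChange_a₃]

theorem transl_a₄ : (transl r t • W).a₄ = W.a₄ + 2 * r * W.a₂ - t * W.a₁ + 3 * r ^ 2 := by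
  simp [transl, variableChange_a₄]

theorem transl_a₆ : (transl r t • W).a₆ =
    W.a₆ + r * W.a₄ + r ^ 2 * W.a₂ + r ^ 3 - t * W.a₃ - t ^ 2 - r * t * W.a₁ := by
  simp [transl, variableChange_a₆]

theorem transl_b₂ : (transl r t • W).b₂ = W.b₂ + 12 * r := by
  simp [transl, variableChange_b₂]

theorem transl_b₄ : (transl r t • W).b₄ = W.b₄ + r * W.b₂ + 6 * r ^ 2 := by
  simp [transl, variableChange_b₄]

theorem transl_c₄ : (transl r t • W).c₄ = W.c₄ := by
  simp [transl, variableChange_c₄]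

theorem transl_Δ : (transl r t • W).Δ = W.Δ := by
  simp [transl, variableChange_Δ]

/-- In normal form (`a₃ = a₄ = 0`): `Δ = -a₆ (b₂³ + 432 a₆)`. -/
theorem Δ_of_normal (h₃ : W.a₃ = 0) (h₄ : W.a₄ = 0) :
    W.Δ = -W.a₆ * (W.b₂ ^ 3 + 432 * W.a₆) := by
  simp only [WeierstrassCurve.Δ, WeierstrassCurve.b₂, WeierstrassCurve.b₄, WeierstrassCurve.b₆,
    WeierstrassCurve.b₈, h₃, h₄]
  ring

/-- In normal form (`a₃ = a₄ = 0`): `c₄ = b₂²`. -/
theorem c₄_of_normal (h₃ : W.a₃ = 0) (h₄ : W.a₄ = 0) : W.c₄ = W.b₂ ^ 2 := by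
  simp only [WeierstrassCurve.c₄, WeierstrassCurve.b₂, WeierstrassCurve.b₄, h₃, h₄]
  ring

end formulas

/-- `(r, t)` is a centering of `W`: the translate is in normal form with the node at `(0, 0)`. -/
structure IsCentering (v : Valuation K Γ₀) (W : WeierstrassCurve K) (r t : K) : Prop where
  r_int : v r ≤ 1
  t_int : v t ≤ 1
  a₃ : (transl r t • W).a₃ = 0
  a₄ : (transl r t • W).a₄ = 0
  a₆ : v (transl r t • W).a₆ < 1
  b₂ : v (transl r t • W).b₂ = 1

section valuation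

variable (v : Valuation K Γ₀)

theorem v_eq_one_of_sq {w : K} (h : v (w ^ 2) = 1) : v w = 1 := by
  rw [map_pow] at h
  rcases lt_trichotomy (v w) 1 with h1 | h1 | h1
  · exfalso
    have : v w ^ 2 < 1 := pow_lt_one' h1 (by norm_num)
    rw [h] at this
    exact lt_irrefl _ this
  · exact h1
  · exfalso
    have : 1 < v w ^ 2 := one_lt_pow' h1 (by norm_num)
    rw [h] at this
    exact lt_irrefl _ this

theorem v_add_eq_one_of_lt {a b : K} (ha : v a = 1) (hb : v b < 1) : v (a + b) = 1 := by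
  rw [Valuation.map_add_eq_of_lt_left v (by rw [ha]; exact hb), ha]

theorem v_eq_one_of_mul_eq_one {a b : K} (ha : v a ≤ 1) (hb : v b ≤ 1) (h : v (a * b) = 1) :
    v a = 1 := by
  rw [map_mul] at h
  refine le_antisymm ha ?_
  calc (1 : Γ₀) = v a * v b := h.symm
    _ ≤ v a * 1 := mul_le_mul_right hb _
    _ = v a := mul_one _

/-- a root of a monic quadratic polynomial with integral coefficients is integral. -/
theorem v_le_one_of_quadratic {x a b : K} (ha : v a ≤ 1) (hb : v b ≤ 1)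
    (h : x ^ 2 + a * x + b = 0) : v x ≤ 1 := by
  by_contra hx
  rw [not_le] at hx
  have h1 : x ^ 2 = -(a * x + b) := by linear_combination h
  have h2 : v (a * x + b) ≤ v x := by
    refine le_trans (v.map_add _ _) (max_le ?_ (le_trans hb hx.le))
    rw [map_mul]
    calc v a * v x ≤ 1 * v x := mul_le_mul_left ha _
      _ = v x := one_mul _
  have h3 : v x < v (x ^ 2) := by
    rw [map_pow, pow_two]
    have hx0 : 0 < v x := lt_trans zero_lt_one hx
    calc v x = v x * 1 := (mul_one _).symm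
      _ < v x * v x := by
        exact (mul_lt_mul_iff_right₀ hx0).mpr hx
  rw [h1, Valuation.map_neg] at h3
  exact absurd h2 (not_le.mpr h3)

end valuation

section centering

variable (v : Valuation K Γ₀) (W : WeierstrassCurve K)

/-- The translation attached to a square root `w` of `c₄` (`12 r + b₂ = w`,
`2 t + a₁ r + a₃ = 0`) with `r` integral: everything except `v a₆ < 1`. -/
theorem centering_aux (h2 : (2 : K) ≠ 0) (h3 : (3 : K) ≠ 0)
    (ha₁ : v W.a₁ ≤ 1) (ha₂ : v W.a₂ ≤ 1) (ha₃ : v W.a₃ ≤ 1) (ha₄ : v W.a₄ ≤ 1)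
    (ha₆ : v W.a₆ ≤ 1) (hc₄ : v W.c₄ = 1) {w r t : K} (hw : w ^ 2 = W.c₄)
    (hr : 12 * r + W.b₂ = w) (ht : 2 * t + W.a₁ * r + W.a₃ = 0) (hrint : v r ≤ 1) :
    v t ≤ 1 ∧ (transl r t • W).a₃ = 0 ∧ (transl r t • W).a₄ = 0 ∧ (transl r t • W).b₂ = w ∧
      v (transl r t • W).a₆ ≤ 1 ∧ v w = 1 := by
  have hvw : v w = 1 := v_eq_one_of_sq v (by rw [hw, hc₄])
  have h48 : (48 : K) ≠ 0 := by
    have : (48 : K) = 2 ^ 4 * 3 := by norm_num
    rw [this]
    exact mul_ne_zero (pow_ne_zero _ h2) h3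
  have e₃ : (transl r t • W).a₃ = 0 := by
    rw [transl_a₃]
    linear_combination ht
  have e₄ : (transl r t • W).a₄ = 0 := by
    rw [transl_a₄]
    have h : 48 * (W.a₄ + 2 * r * W.a₂ - t * W.a₁ + 3 * r ^ 2) = 0 := by
      simp only [WeierstrassCurve.c₄, WeierstrassCurve.b₂, WeierstrassCurve.b₄] at hw hr
      linear_combination hw + (12 * r + (W.a₁ ^ 2 + 4 * W.a₂) + w) * hr - 24 * W.a₁ * ht
    exact (mul_eq_zero.mp h).resolve_left h48
  have eb : (transl r t • W).b₂ = w := by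
    rw [transl_b₂]
    linear_combination hr
  have htint : v t ≤ 1 := by
    by_cases hv2 : v (2 : K) = 1
    · have h : v (2 * t) ≤ 1 := by
        have : 2 * t = -(W.a₁ * r + W.a₃) := by linear_combination ht
        rw [this, Valuation.map_neg]
        exact vle_add v (vle_mul v ha₁ hrint) ha₃
      rwa [map_mul, hv2, one_mul] at h
    · have hv2' : v (2 : K) < 1 := lt_of_le_of_ne (vle_ofNat v 2) hv2
      have hb₂ : v W.b₂ = 1 := by
        have : W.b₂ = w + (-(2 * (6 * r))) := by linear_combination hr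
        rw [this]
        refine v_add_eq_one_of_lt v hvw ?_
        rw [Valuation.map_neg]
        exact vlt_mul_right v hv2' (vle_mul v (vle_ofNat v 6) hrint)
      have hva₁ : v W.a₁ = 1 := by
        apply v_eq_one_of_sq v
        have : W.a₁ ^ 2 = W.b₂ + (-(2 * (2 * W.a₂))) := by
          simp only [WeierstrassCurve.b₂]
          ring
        rw [this]
        refine v_add_eq_one_of_lt v hb₂ ?_
        rw [Valuation.map_neg]
        exact vlt_mul_right v hv2' (vle_mul v (vle_ofNat v 2) ha₂)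
      have h : v (W.a₁ * t) ≤ 1 := by
        have : W.a₁ * t = W.a₄ + 2 * r * W.a₂ + 3 * r ^ 2 := by
          rw [transl_a₄] at e₄
          linear_combination -e₄
        rw [this]
        exact vle_add v (vle_add v ha₄ (vle_mul v (vle_mul v (vle_ofNat v 2) hrint) ha₂))
          (vle_mul v (vle_ofNat v 3) (vle_pow v hrint 2))
      rwa [map_mul, hva₁, one_mul] at h
  refine ⟨htint, e₃, e₄, eb, ?_, hvw⟩
  rw [transl_a₆]
  exact vle_sub v (vle_sub v (vle_sub v (vle_add v (vle_add v (vle_add v ha₆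
    (vle_mul v hrint ha₄)) (vle_mul v (vle_pow v hrint 2) ha₂)) (vle_pow v hrint 3))
    (vle_mul v htint ha₃)) (vle_pow v htint 2)) (vle_mul v (vle_mul v hrint htint) ha₁)

/-- The two critical values: `432 (a₆'(-w) - a₆'(w)) = w³`. -/
theorem centering_switch (h2 : (2 : K) ≠ 0) {w r t r' t' : K} (hw : w ^ 2 = W.c₄)
    (hr : 12 * r + W.b₂ = w) (ht : 2 * t + W.a₁ * r + W.a₃ = 0)
    (hr' : 12 * r' + W.b₂ = -w) (ht' : 2 * t' + W.a₁ * r' + W.a₃ = 0) :
    432 * (transl r' t' • W).a₆ = 432 * (transl r t • W).a₆ + w ^ 3 := by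
  have h16 : (16 : K) ≠ 0 := by
    have : (16 : K) = 2 ^ 4 := by norm_num
    rw [this]
    exact pow_ne_zero _ h2
  have key : ∀ {w r t : K}, 12 * r + W.b₂ = w → 2 * t + W.a₁ * r + W.a₃ = 0 →
      6912 * (transl r t • W).a₆ = 4 * (w - W.b₂) ^ 3 + 12 * W.b₂ * (w - W.b₂) ^ 2 +
        288 * W.b₄ * (w - W.b₂) + 1728 * W.b₆ := by
    intro w r t hr ht
    subst hr
    rw [transl_a₆]
    simp only [WeierstrassCurve.b₂, WeierstrassCurve.b₄, WeierstrassCurve.b₆]
    linear_combination (-1728 * (2 * t + W.a₁ * r + W.a₃)) * ht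
  have k1 := key hr ht
  have k2 := key hr' ht'
  have h : 16 * (432 * (transl r' t' • W).a₆) = 16 * (432 * (transl r t • W).a₆ + w ^ 3) := by
    simp only [WeierstrassCurve.c₄] at hw
    linear_combination k2 - k1 + (-24 * w) * hw
  exact mul_left_cancel₀ h16 h

/-- choice of the sign of the square root `w` of `c₄`: `(w - b₂) / 12` is integral. -/
theorem exists_sqrt_c₄ [IsAlgClosed K] (h2 : (2 : K) ≠ 0)
    (ha₁ : v W.a₁ ≤ 1) (ha₂ : v W.a₂ ≤ 1) (ha₃ : v W.a₃ ≤ 1) (ha₄ : v W.a₄ ≤ 1)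
    (hc₄ : v W.c₄ = 1) : ∃ w : K, w ^ 2 = W.c₄ ∧ v (w - W.b₂) ≤ v (12 : K) := by
  obtain ⟨w₀, hw₀⟩ := IsAlgClosed.exists_pow_nat_eq W.c₄ (n := 2) (by norm_num)
  have hvw₀ : v w₀ = 1 := v_eq_one_of_sq v (by rw [hw₀, hc₄])
  have hb₂int : v W.b₂ ≤ 1 := by
    simp only [WeierstrassCurve.b₂]
    exact vle_add v (vle_pow v ha₁ 2) (vle_mul v (vle_ofNat v 4) ha₂)
  have hb₄int : v W.b₄ ≤ 1 := by
    simp only [WeierstrassCurve.b₄]
    exact vle_add v (vle_mul v (vle_ofNat v 2) ha₄) (vle_mul v ha₁ ha₃)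
  by_cases hb₂ : v W.b₂ = 1
  · have aux : ∀ w : K, w ^ 2 = W.c₄ → v (w - W.b₂) ≤ v (w + W.b₂) →
        v (w - W.b₂) ≤ v (12 : K) := by
      intro w hw hle
      have hAB : (w - W.b₂) * (w + W.b₂) = -(12 * 2 * W.b₄) := by
        simp only [WeierstrassCurve.c₄] at hw
        linear_combination hw
      have hBA : (2 : K) * W.b₂ = (w + W.b₂) - (w - W.b₂) := by ring
      have hv2 : v (2 : K) ≤ v (w + W.b₂) := by
        have h1 : v ((2 : K) * W.b₂) = v (2 : K) := by rw [map_mul, hb₂, mul_one]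
        rw [← h1, hBA]
        exact le_trans (v.map_sub _ _) (max_le le_rfl hle)
      have h20 : 0 < v (2 : K) := by
        rw [Valuation.pos_iff]
        exact h2
      have h3 : v (w - W.b₂) * v (2 : K) ≤ v (12 : K) * v (2 : K) := by
        calc v (w - W.b₂) * v (2 : K) ≤ v (w - W.b₂) * v (w + W.b₂) :=
              mul_le_mul_right hv2 _
          _ = v (12 * 2 * W.b₄) := by rw [← map_mul, hAB, Valuation.map_neg]
          _ = v (12 : K) * v (2 : K) * v W.b₄ := by rw [map_mul, map_mul]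
          _ ≤ v (12 : K) * v (2 : K) * 1 := mul_le_mul_right hb₄int _
          _ = v (12 : K) * v (2 : K) := mul_one _
      exact (mul_le_mul_iff_left₀ h20).mp h3
    rcases le_total (v (w₀ - W.b₂)) (v (w₀ + W.b₂)) with hle | hle
    · exact ⟨w₀, hw₀, aux w₀ hw₀ hle⟩
    · refine ⟨-w₀, by rw [neg_sq]; exact hw₀, aux (-w₀) (by rw [neg_sq]; exact hw₀) ?_⟩
      have e1 : -w₀ - W.b₂ = -(w₀ + W.b₂) := by ring
      have e2 : -w₀ + W.b₂ = -(w₀ - W.b₂) := by ring
      rw [e1, e2, Valuation.map_neg, Valuation.map_neg]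
      exact hle
  · have hb₂' : v W.b₂ < 1 := lt_of_le_of_ne hb₂int hb₂
    have h24 : v ((12 : K) * 2 * W.b₄) = 1 := by
      have : (12 : K) * 2 * W.b₄ = -(W.c₄ + -(W.b₂ * W.b₂)) := by
        simp only [WeierstrassCurve.c₄]
        ring
      rw [this, Valuation.map_neg]
      refine v_add_eq_one_of_lt v hc₄ ?_
      rw [Valuation.map_neg]
      exact vlt_mul_left v hb₂int hb₂'
    have h24' : v ((12 : K) * 2) = 1 :=
      v_eq_one_of_mul_eq_one v (vle_mul v (vle_ofNat v 12) (vle_ofNat v 2)) hb₄int h24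
    have h12 : v (12 : K) = 1 :=
      v_eq_one_of_mul_eq_one v (vle_ofNat v 12) (vle_ofNat v 2) h24'
    refine ⟨w₀, hw₀, ?_⟩
    rw [h12]
    exact vle_sub v hvw₀.le hb₂int

/-- **Centering exists**: over an algebraically closed valued field with `2, 3 ≠ 0`, a Weierstrass
equation with integral coefficients, `v Δ < 1` and `v c₄ = 1` has a centering. -/
theorem exists_isCentering [IsAlgClosed K] (h2 : (2 : K) ≠ 0) (h3 : (3 : K) ≠ 0)
    (ha₁ : v W.a₁ ≤ 1) (ha₂ : v W.a₂ ≤ 1) (ha₃ : v W.a₃ ≤ 1) (ha₄ : v W.a₄ ≤ 1)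
    (ha₆ : v W.a₆ ≤ 1) (hΔ : v W.Δ < 1) (hc₄ : v W.c₄ = 1) :
    ∃ r t : K, IsCentering v W r t := by
  have h12 : (12 : K) ≠ 0 := by
    have : (12 : K) = 2 ^ 2 * 3 := by norm_num
    rw [this]
    exact mul_ne_zero (pow_ne_zero _ h2) h3
  obtain ⟨w, hw, hwb⟩ := exists_sqrt_c₄ v W h2 ha₁ ha₂ ha₃ ha₄ hc₄
  -- the data attached to a square root
  have data : ∀ w : K, ∃ r t : K, 12 * r + W.b₂ = w ∧ 2 * t + W.a₁ * r + W.a₃ = 0 ∧
      v r = v (w - W.b₂) / v (12 : K) := by
    intro w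
    refine ⟨(w - W.b₂) / 12, -(W.a₁ * ((w - W.b₂) / 12) + W.a₃) / 2, ?_, ?_, ?_⟩
    · field_simp
      ring
    · field_simp
      ring
    · rw [map_div₀]
  have hv12 : 0 < v (12 : K) := by
    rw [Valuation.pos_iff]
    exact h12
  obtain ⟨r, t, hr, ht, hvr⟩ := data w
  have hrint : v r ≤ 1 := by
    rw [hvr]
    exact (div_le_one₀ hv12).mpr hwb
  obtain ⟨htint, e₃, e₄, eb, e₆, hvw⟩ :=
    centering_aux v W h2 h3 ha₁ ha₂ ha₃ ha₄ ha₆ hc₄ hw hr ht hrint
  have hΔ' : W.Δ = -(transl r t • W).a₆ * (w ^ 3 + 432 * (transl r t • W).a₆) := by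
    rw [← transl_Δ W r t, Δ_of_normal _ e₃ e₄, eb]
  by_cases hA : v (transl r t • W).a₆ < 1
  · exact ⟨r, t, hrint, htint, e₃, e₄, hA, by rw [eb]; exact hvw⟩
  · have hA1 : v (transl r t • W).a₆ = 1 := le_antisymm e₆ (not_lt.mp hA)
    have hs : v (w ^ 3 + 432 * (transl r t • W).a₆) < 1 := by
      have h : v W.Δ = v (w ^ 3 + 432 * (transl r t • W).a₆) := by
        rw [hΔ', map_mul, Valuation.map_neg, hA1, one_mul]
      rw [← h]
      exact hΔ
    have hvw3 : v (w ^ 3) = 1 := by rw [map_pow, hvw, one_pow]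
    have h432A : v (432 * (transl r t • W).a₆) = 1 := by
      by_contra hne
      have hlt : v (432 * (transl r t • W).a₆) < 1 :=
        lt_of_le_of_ne (vle_mul v (vle_ofNat v 432) e₆) hne
      have := v_add_eq_one_of_lt v hvw3 hlt
      rw [this] at hs
      exact lt_irrefl _ hs
    have h432 : v (432 : K) = 1 := v_eq_one_of_mul_eq_one v (vle_ofNat v 432) e₆ h432A
    have hv12' : v (12 : K) = 1 := by
      refine v_eq_one_of_mul_eq_one v (vle_ofNat v 12) (vle_ofNat v 36) ?_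
      have : (12 : K) * 36 = 432 := by norm_num
      rw [this, h432]
    have hb₂int : v W.b₂ ≤ 1 := by
      simp only [WeierstrassCurve.b₂]
      exact vle_add v (vle_pow v ha₁ 2) (vle_mul v (vle_ofNat v 4) ha₂)
    have hw' : (-w) ^ 2 = W.c₄ := by rw [neg_sq]; exact hw
    obtain ⟨r', t', hr', ht', hvr'⟩ := data (-w)
    have hrint' : v r' ≤ 1 := by
      rw [hvr', hv12', div_one]
      exact vle_sub v (vle_neg v hvw.le) hb₂int
    obtain ⟨htint', e₃', e₄', eb', e₆', hvw'⟩ :=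
      centering_aux v W h2 h3 ha₁ ha₂ ha₃ ha₄ ha₆ hc₄ hw' hr' ht' hrint'
    have sw := centering_switch W h2 hw hr ht hr' ht'
    have hA' : v (transl r' t' • W).a₆ < 1 := by
      have h : v (432 * (transl r' t' • W).a₆) < 1 := by
        rw [sw, add_comm]
        exact hs
      rwa [map_mul, h432, one_mul] at h
    exact ⟨r', t', hrint', htint', e₃', e₄', hA', by rw [eb']; exact hvw'⟩

/-- **The centering is inertia-invariant**: a ring endomorphism `σ` of `K` that fixes the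
coefficients of `W` and is trivial modulo the maximal ideal fixes `r` and `t`. -/
theorem IsCentering.map_eq {v : Valuation K Γ₀} {W : WeierstrassCurve K} {r t : K}
    (hC : IsCentering v W r t) (h2 : (2 : K) ≠ 0) (σ : K →+* K)
    (hσ₁ : σ W.a₁ = W.a₁) (hσ₂ : σ W.a₂ = W.a₂) (hσ₃ : σ W.a₃ = W.a₃) (hσ₄ : σ W.a₄ = W.a₄)
    (hσ : ∀ a : K, v a ≤ 1 → v (σ a - a) < 1) : σ r = r ∧ σ t = t := by
  have hp : W.b₄ + r * W.b₂ + 6 * r ^ 2 = 0 := by
    rw [← transl_b₄ W r t]
    simp only [WeierstrassCurve.b₄, hC.a₃, hC.a₄]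
    ring
  have hσb₂ : σ W.b₂ = W.b₂ := by
    simp only [WeierstrassCurve.b₂, map_add, map_mul, map_pow, hσ₁, hσ₂, map_ofNat]
  have hσb₄ : σ W.b₄ = W.b₄ := by
    simp only [WeierstrassCurve.b₄, map_add, map_mul, hσ₁, hσ₃, hσ₄, map_ofNat]
  have hp' : W.b₄ + σ r * W.b₂ + 6 * σ r ^ 2 = 0 := by
    have := congrArg σ hp
    simpa only [map_add, map_mul, map_pow, hσb₂, hσb₄, map_ofNat, map_zero] using this
  have hfac : (σ r - r) * ((W.b₂ + 12 * r) + 6 * (σ r - r)) = 0 := by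
    linear_combination hp' - hp
  have hunit : v ((W.b₂ + 12 * r) + 6 * (σ r - r)) = 1 := by
    refine v_add_eq_one_of_lt v ?_ (vlt_mul_left v (vle_ofNat v 6) (hσ r hC.r_int))
    rw [← transl_b₂ W r t]
    exact hC.b₂
  have hne : (W.b₂ + 12 * r) + 6 * (σ r - r) ≠ 0 := by
    intro h0
    rw [h0, map_zero] at hunit
    exact zero_ne_one hunit
  have hr : σ r = r := sub_eq_zero.mp ((mul_eq_zero.mp hfac).resolve_right hne)
  refine ⟨hr, ?_⟩
  have ht : W.a₃ + r * W.a₁ + 2 * t = 0 := by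
    rw [← transl_a₃ W r t]
    exact hC.a₃
  have ht' : W.a₃ + r * W.a₁ + 2 * σ t = 0 := by
    have := congrArg σ ht
    simpa only [map_add, map_mul, hσ₁, hσ₃, hr, map_ofNat, map_zero] using this
  have : 2 * (σ t - t) = 0 := by linear_combination ht' - ht
  exact sub_eq_zero.mp ((mul_eq_zero.mp this).resolve_left h2)

/-- The coefficients of the centered equation are integral. -/
theorem IsCentering.integral {v : Valuation K Γ₀} {W : WeierstrassCurve K} {r t : K}
    (hC : IsCentering v W r t) (ha₁ : v W.a₁ ≤ 1) (ha₂ : v W.a₂ ≤ 1) :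
    v (transl r t • W).a₁ ≤ 1 ∧ v (transl r t • W).a₂ ≤ 1 ∧ v (transl r t • W).a₃ ≤ 1 ∧
      v (transl r t • W).a₄ ≤ 1 ∧ v (transl r t • W).a₆ ≤ 1 := by
  refine ⟨?_, ?_, ?_, ?_, hC.a₆.le⟩
  · rw [transl_a₁]
    exact ha₁
  · rw [transl_a₂]
    exact vle_add v ha₂ (vle_mul v (vle_ofNat v 3) hC.r_int)
  · rw [hC.a₃, map_zero]
    exact zero_le_one
  · rw [hC.a₄, map_zero]
    exact zero_le_one

/-- **Tangent directions at the node**: if `v (a₁² + 4 a₂) = 1`, the polynomial `T² + a₁ T - a₂`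
has two integral roots `α, β` with `v (α - β) = 1`. -/
theorem exists_tangent_roots [IsAlgClosed K] (h2 : (2 : K) ≠ 0) {a₁ a₂ : K} (ha₁ : v a₁ ≤ 1)
    (ha₂ : v a₂ ≤ 1) (hb : v (a₁ ^ 2 + 4 * a₂) = 1) :
    ∃ α β : K, v α ≤ 1 ∧ v β ≤ 1 ∧ α + β = -a₁ ∧ α * β = -a₂ ∧ v (α - β) = 1 := by
  obtain ⟨d, hd⟩ := IsAlgClosed.exists_pow_nat_eq (a₁ ^ 2 + 4 * a₂) (n := 2) (by norm_num)
  have hvd : v d = 1 := v_eq_one_of_sq v (by rw [hd, hb])
  have hα : ((-a₁ + d) / 2) ^ 2 + a₁ * ((-a₁ + d) / 2) + -a₂ = 0 := by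
    field_simp
    linear_combination hd
  have hβ : ((-a₁ - d) / 2) ^ 2 + a₁ * ((-a₁ - d) / 2) + -a₂ = 0 := by
    field_simp
    linear_combination hd
  refine ⟨(-a₁ + d) / 2, (-a₁ - d) / 2,
    v_le_one_of_quadratic v ha₁ (by rwa [Valuation.map_neg]) hα,
    v_le_one_of_quadratic v ha₁ (by rwa [Valuation.map_neg]) hβ, ?_, ?_, ?_⟩
  · field_simp
    ring
  · field_simp
    linear_combination -hd
  · have : (-a₁ + d) / 2 - (-a₁ - d) / 2 = d := by
      field_simp
      ring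
    rw [this, hvd]

/-- **The tangent directions are inertia-invariant.** -/
theorem tangent_roots_map_eq {a₁ a₂ α β : K} (hα : v α ≤ 1) (hβ : v β ≤ 1)
    (hsum : α + β = -a₁) (hprod : α * β = -a₂) (hαβ : v (α - β) = 1) (σ : K →+* K)
    (hσ₁ : σ a₁ = a₁) (hσ₂ : σ a₂ = a₂) (hσ : ∀ a : K, v a ≤ 1 → v (σ a - a) < 1) :
    σ α = α ∧ σ β = β := by
  have key : ∀ x y : K, v x ≤ 1 → x + y = -a₁ → x * y = -a₂ → v (x - y) = 1 → σ x = x := by
    intro x y hx hs hp hxy
    have h1 : x ^ 2 + a₁ * x - a₂ = 0 := by linear_combination x * hs - hp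
    have h2 : σ x ^ 2 + a₁ * σ x - a₂ = 0 := by
      have := congrArg σ h1
      simpa only [map_sub, map_add, map_mul, map_pow, hσ₁, hσ₂, map_zero] using this
    have hfac : (σ x - x) * (σ x - y) = 0 := by
      linear_combination h2 + (-σ x) * hs + hp
    have hne : σ x - y ≠ 0 := by
      intro h0
      have h3 : v (σ x - y) = 1 := by
        have : σ x - y = (x - y) + (σ x - x) := by ring
        rw [this]
        exact v_add_eq_one_of_lt v hxy (hσ x hx)
      rw [h0, map_zero] at h3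
      exact zero_ne_one h3
    exact sub_eq_zero.mp ((mul_eq_zero.mp hfac).resolve_right hne)
  refine ⟨key α β hα hsum hprod hαβ, key β α hβ ?_ ?_ ?_⟩
  · rw [add_comm]
    exact hsum
  · rw [mul_comm]
    exact hprod
  · rw [Valuation.map_sub_swap]
    exact hαβ

end centering

end Fermat.Agent.MultRed
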