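/-
MultRed MR0 (helper75), valuation form: `E0` described only through the valuation of the two
partial derivatives, in the style of the S05 library (`S05H5.sub_eq_zero_or_one_lt_v_px`).
-/
import Mathlib
import Fermat.Agent.Lib.MultRed.E0

set_option autoImplicit false
set_option linter.unusedSectionVars false

namespace Fermat.Agent.MultRed

open WeierstrassCurve WeierstrassCurve.Affine IsLocalRing S05H65 S05H75 Fermat.Agent.EllRed

variable {K : Type*} [Field K] [DecidableEq K] {A : ValuationSubring K} {E : Affine K}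

/-- The coefficients of `E` are integral. -/
structure IntCoeff (A : ValuationSubring K) (E : Affine K) : Prop where
  mem_a₁ : E.a₁ ∈ A
  mem_a₂ : E.a₂ ∈ A
  mem_a₃ : E.a₃ ∈ A
  mem_a₄ : E.a₄ ∈ A
  mem_a₆ : E.a₆ ∈ A

/-- The reduced cubic (possibly singular). -/
noncomputable def redCurve (A : ValuationSubring K) (E : Affine K) : Affine (ResidueField A) :=
  ⟨res A E.a₁, res A E.a₂, res A E.a₃, res A E.a₄, res A E.a₆⟩

lemma isReduction_redCurve (hint : IntCoeff A E) : IsReduction A E (redCurve A E) where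
  mem_a₁ := hint.mem_a₁
  mem_a₂ := hint.mem_a₂
  mem_a₃ := hint.mem_a₃
  mem_a₄ := hint.mem_a₄
  mem_a₆ := hint.mem_a₆
  res_a₁ := rfl
  res_a₂ := rfl
  res_a₃ := rfl
  res_a₄ := rfl
  res_a₆ := rfl

/-- Valuation form of "the reduction of `(x, y)` is a nonsingular point of the reduced cubic":
not both partial derivatives are in the maximal ideal. -/
def NsVal (A : ValuationSubring K) (E : Affine K) (x y : K) : Prop :=
  ¬(A.valuation (E.a₁ * y - (3 * x ^ 2 + 2 * E.a₂ * x + E.a₄)) < 1 ∧
    A.valuation (2 * y + E.a₁ * x + E.a₃) < 1)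

lemma res_Fx (hint : IntCoeff A E) {x y : K} (hx : x ∈ A) (hy : y ∈ A) :
    E.a₁ * y - (3 * x ^ 2 + 2 * E.a₂ * x + E.a₄) ∈ A ∧
    res A (E.a₁ * y - (3 * x ^ 2 + 2 * E.a₂ * x + E.a₄))
      = (redCurve A E).a₁ * res A y
        - (3 * res A x ^ 2 + 2 * (redCurve A E).a₂ * res A x + (redCurve A E).a₄) := by
  have e : E.a₁ * y - (3 * x ^ 2 + 2 * E.a₂ * x + E.a₄)
      = (((⟨E.a₁, hint.mem_a₁⟩ : A) * ⟨y, hy⟩
          - (3 * (⟨x, hx⟩ : A) ^ 2 + 2 * ⟨E.a₂, hint.mem_a₂⟩ * ⟨x, hx⟩ + ⟨E.a₄, hint.mem_a₄⟩) : A)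
          : K) := by
    push_cast
    rfl
  constructor
  · rw [e]
    exact Subtype.property _
  · rw [e, res_coe]
    simp only [map_sub, map_add, map_mul, map_pow, map_ofNat]
    rw [res_of_mem hx, res_of_mem hy]
    simp only [redCurve, res_of_mem hint.mem_a₁, res_of_mem hint.mem_a₂, res_of_mem hint.mem_a₄]

lemma res_Fy (hint : IntCoeff A E) {x y : K} (hx : x ∈ A) (hy : y ∈ A) :
    2 * y + E.a₁ * x + E.a₃ ∈ A ∧
    res A (2 * y + E.a₁ * x + E.a₃)
      = 2 * res A y + (redCurve A E).a₁ * res A x + (redCurve A E).a₃ := by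
  have e : 2 * y + E.a₁ * x + E.a₃
      = ((2 * (⟨y, hy⟩ : A) + ⟨E.a₁, hint.mem_a₁⟩ * ⟨x, hx⟩ + ⟨E.a₃, hint.mem_a₃⟩ : A) : K) := by
    push_cast
    rfl
  constructor
  · rw [e]
    exact Subtype.property _
  · rw [e, res_coe]
    simp only [map_add, map_mul, map_ofNat]
    rw [res_of_mem hx, res_of_mem hy]
    simp only [redCurve, res_of_mem hint.mem_a₁, res_of_mem hint.mem_a₃]

/-- The reduction of an integral point is nonsingular iff not both partial derivatives are in
the maximal ideal. -/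
theorem nonsingular_res_iff (hint : IntCoeff A E) {x y : K} (hxy : E.Equation x y) (hx : x ∈ A) :
    (redCurve A E).Nonsingular (res A x) (res A y) ↔ NsVal A E x y := by
  have h := isReduction_redCurve hint
  have hy : y ∈ A := h.mem_y hxy hx
  have heq := h.equation_res hxy hx hy
  obtain ⟨hFxm, hFx⟩ := res_Fx hint hx hy
  obtain ⟨hFym, hFy⟩ := res_Fy hint hx hy
  rw [nonsingular_iff', NsVal, ← res_eq_zero_iff hFxm, ← res_eq_zero_iff hFym, hFx, hFy]
  constructor
  · rintro ⟨-, h1 | h1⟩ ⟨h2, h3⟩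
    · exact h1 h2
    · exact h1 h3
  · intro h1
    refine ⟨heq, ?_⟩
    by_contra h2
    push Not at h2
    exact h1 h2

/-- Valuation form of `InE0`. -/
def InE0v (A : ValuationSubring K) (P : E.Point) : Prop :=
  InG1 A.valuation P ∨
    ∃ (x y : K) (hxy : E.Nonsingular x y), P = .some x y hxy ∧ x ∈ A ∧ NsVal A E x y

variable [DecidableEq (ResidueField A)]

lemma inE0v_iff (hint : IntCoeff A E) (P : E.Point) :
    InE0v A P ↔ InE0 A (redCurve A E) P := by
  constructor
  · rintro (hP | ⟨x, y, hxy, rfl, hx, hns⟩)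
    · exact Or.inl hP
    · exact Or.inr ⟨x, y, hxy, rfl, hx, (nonsingular_res_iff hint hxy.1 hx).mpr hns⟩
  · rintro (hP | ⟨x, y, hxy, rfl, hx, hns⟩)
    · exact Or.inl hP
    · exact Or.inr ⟨x, y, hxy, rfl, hx, (nonsingular_res_iff hint hxy.1 hx).mp hns⟩

omit [DecidableEq (ResidueField A)] in
lemma inE0v_zero : InE0v A (0 : E.Point) := Or.inl (Or.inl rfl)

omit [DecidableEq (ResidueField A)] in
/-- **`E0` is closed under addition** (valuation form; integral coefficients, any reduction). -/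
theorem inE0v_add (hint : IntCoeff A E) {P Q : E.Point} (hP : InE0v A P) (hQ : InE0v A Q) :
    InE0v A (P + Q) := by
  classical
  rw [inE0v_iff hint] at hP hQ ⊢
  exact inE0_add (isReduction_redCurve hint) hP hQ

omit [DecidableEq (ResidueField A)] in
theorem inE0v_neg (hint : IntCoeff A E) {P : E.Point} (hP : InE0v A P) : InE0v A (-P) := by
  classical
  rw [inE0v_iff hint] at hP ⊢
  exact inE0_neg (isReduction_redCurve hint) hP

omit [DecidableEq (ResidueField A)] in
/-- **`E0` is closed under subtraction** (valuation form). -/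
theorem inE0v_sub (hint : IntCoeff A E) {P Q : E.Point} (hP : InE0v A P) (hQ : InE0v A Q) :
    InE0v A (P - Q) := by
  classical
  rw [inE0v_iff hint] at hP hQ ⊢
  exact inE0_sub (isReduction_redCurve hint) hP hQ

omit [DecidableEq (ResidueField A)] in
/-- `n`-torsion points of `E0` with the same reduction are equal, for `n` a unit of `A`:
the kernel of reduction has no `n`-torsion. -/
theorem eq_of_sub_inG1_of_torsion (hint : IntCoeff A E) {n : ℕ} (hn : A.valuation (n : K) = 1)
    {P Q : E.Point} (hP : n • P = 0) (hQ : n • Q = 0) (hPQ : InG1 A.valuation (P - Q)) :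
    P = Q := by
  classical
  have h := isReduction_redCurve hint
  have h0 : n • (P - Q) = 0 := by rw [smul_sub, hP, hQ, sub_zero]
  have := inG1_torsion_free A.valuation h.val_b₂ h.val_b₄ h.val_b₆ h.val_b₈ hn hPQ h0
  exact sub_eq_zero.mp this

end Fermat.Agent.MultRed
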