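import Mathlib
import Fermat.Prelude.Def_FLTPrelim_Ramification
import Fermat.Agent.Lib.MultRed.Core
import Fermat.Agent.Lib.MultRed.NormalGal

/-!
# MultRed / NormalQbar: the nodal normal form at a multiplicative prime, Galois form over `Q̄`

Repackaging of helper78's `exists_nodalData` (`NormalGal.lean`) as a `NodalNF` of the translate of
`(W.map (Int.castRingHom ℚ))⁄Q̄` (the shape used by `Main.lean`).
-/

set_option autoImplicit false

open WeierstrassCurve WeierstrassCurve.Affine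

namespace Fermat.Agent.MultRed

theorem baseChange_map_int (W : WeierstrassCurve ℤ) :
    ((W.map (Int.castRingHom ℚ))⁄(AlgebraicClosure ℚ)) = (W⁄(AlgebraicClosure ℚ)) := by
  show (W.map (Int.castRingHom ℚ)).map (algebraMap ℚ (AlgebraicClosure ℚ))
    = W.map (algebraMap ℤ (AlgebraicClosure ℚ))
  rw [WeierstrassCurve.map_map]
  congr 1

theorem exists_nodalNF (W : WeierstrassCurve ℤ) {q : ℕ} [Fact q.Prime] (hΔ : (q : ℤ) ∣ W.Δ)
    (hc₄ : ¬ (q : ℤ) ∣ W.c₄)
    (A : ValuationSubring (AlgebraicClosure ℚ)) (hA : A.LiesOverPrime q) :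
    ∃ r t α β : AlgebraicClosure ℚ, A.valuation r ≤ 1 ∧ A.valuation t ≤ 1 ∧
      NodalNF A.valuation
        ((transl r t) • ((W.map (Int.castRingHom ℚ))⁄(AlgebraicClosure ℚ))).toAffine α β ∧
      ∀ σ : AlgebraicClosure ℚ ≃ₐ[ℚ] AlgebraicClosure ℚ, σ ∈ A.inertiaSubgroupIn ℚ →
        σ r = r ∧ σ t = t ∧ σ α = α ∧ σ β = β := by
  obtain ⟨r, t, α, β, h⟩ := exists_nodalData W (Fact.out : q.Prime) hΔ hc₄ A hA
  refine ⟨r, t, α, β, h.centering.r_int, h.centering.t_int, ?_, h.fixed⟩
  rw [baseChange_map_int]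
  exact
    { a₃ := h.centering.a₃
      a₄ := h.centering.a₄
      va₆ := h.centering.a₆
      hsum := h.sum
      hprod := h.prod
      vα := h.α_int
      vβ := h.β_int
      vαβ := h.unit }

end Fermat.Agent.MultRed
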