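import Mathlib
import Fermat.Agent.Lib.MultRed.Decomp
import Fermat.Agent.Lib.MultRed.Main

/-!
# MultRed / DecompQbar (MR5, piece B, Galois form; owner: helper4)

`W / ℤ` with multiplicative reduction at `q` (any `q`), `A | q` a valuation subring of `Q̄`.

* `inertia_sub_inE0v`: for `σ` in the inertia group and `P` of odd order (`q ∣ n` allowed),
  `σ P - P` has nonsingular reduction.
* `decomp_sign`: for `σ` in the decomposition group, either `σ P - P` has nonsingular reduction for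
  all `P` of odd order, or `σ P + P` has, for all `P` of odd order.
-/

set_option autoImplicit false

open WeierstrassCurve WeierstrassCurve.Affine

namespace Fermat.Agent.MultRed

open S05H5 S05H65 S05H75

theorem intCoeff_map_int (W : WeierstrassCurve ℤ) (A : ValuationSubring (AlgebraicClosure ℚ)) :
    IntCoeff A ((W.map (Int.castRingHom ℚ))⁄(AlgebraicClosure ℚ)).toAffine :=
  { mem_a₁ := by
      show algebraMap ℚ (AlgebraicClosure ℚ) ((Int.castRingHom ℚ) W.a₁) ∈ A
      rw [Fermat.Agent.EllRed.algebraMap_intCast_rat]; exact intCast_mem A _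
    mem_a₂ := by
      show algebraMap ℚ (AlgebraicClosure ℚ) ((Int.castRingHom ℚ) W.a₂) ∈ A
      rw [Fermat.Agent.EllRed.algebraMap_intCast_rat]; exact intCast_mem A _
    mem_a₃ := by
      show algebraMap ℚ (AlgebraicClosure ℚ) ((Int.castRingHom ℚ) W.a₃) ∈ A
      rw [Fermat.Agent.EllRed.algebraMap_intCast_rat]; exact intCast_mem A _
    mem_a₄ := by
      show algebraMap ℚ (AlgebraicClosure ℚ) ((Int.castRingHom ℚ) W.a₄) ∈ A
      rw [Fermat.Agent.EllRed.algebraMap_intCast_rat]; exact intCast_mem A _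
    mem_a₆ := by
      show algebraMap ℚ (AlgebraicClosure ℚ) ((Int.castRingHom ℚ) W.a₆) ∈ A
      rw [Fermat.Agent.EllRed.algebraMap_intCast_rat]; exact intCast_mem A _ }

section

variable (W : WeierstrassCurve ℤ) {q : ℕ} [Fact q.Prime] (hΔ : (q : ℤ) ∣ W.Δ)
  (hc₄ : ¬ (q : ℤ) ∣ W.c₄) [DecidableEq (AlgebraicClosure ℚ)]
  (A : ValuationSubring (AlgebraicClosure ℚ)) (hA : A.LiesOverPrime q)

include hΔ hc₄ hA

/-- **MR5 (B)**: an element of the decomposition group at a multiplicative prime acts on the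
component group through a sign. -/
theorem decomp_sign (σ : AlgebraicClosure ℚ ≃ₐ[ℚ] AlgebraicClosure ℚ)
    (hσ : σ ∈ A.decompositionSubgroup ℚ) :
    (∀ {n : ℕ}, Odd n → ∀ P : ((W.map (Int.castRingHom ℚ))⁄(AlgebraicClosure ℚ)).Point,
      n • P = 0 → InE0v A (σ • P - P)) ∨
    (∀ {n : ℕ}, Odd n → ∀ P : ((W.map (Int.castRingHom ℚ))⁄(AlgebraicClosure ℚ)).Point,
      n • P = 0 → InE0v A (σ • P + P)) := by
  have hq : q.Prime := Fact.out
  obtain ⟨r, t, α, β, hnd⟩ := exists_nodalData W hq hΔ hc₄ A hA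
  have hint := intCoeff_map_int W A
  have hbc := baseChange_map_int W
  have hC : IsCentering A.valuation ((W.map (Int.castRingHom ℚ))⁄(AlgebraicClosure ℚ)) r t := by
    rw [hbc]; exact hnd.centering
  have nf : NodalNF A.valuation
      ((transl r t) • ((W.map (Int.castRingHom ℚ))⁄(AlgebraicClosure ℚ))).toAffine α β := by
    rw [hbc]
    exact
      { a₃ := hnd.centering.a₃
        a₄ := hnd.centering.a₄
        va₆ := hnd.centering.a₆
        hsum := hnd.sum
        hprod := hnd.prod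
        vα := hnd.α_int
        vβ := hnd.β_int
        vαβ := hnd.unit }
  have : Algebra.IsAlgebraic ℚ (AlgebraicClosure ℚ) := AlgebraicClosure.isAlgebraic ℚ
  have hσv : ∀ a : AlgebraicClosure ℚ, A.valuation (σ.toAlgHom a) = A.valuation a :=
    fun a => Fermat.Agent.S13Two.decomp_val_eq A σ hσ a
  have hE0 : ∀ P Q : ((W.map (Int.castRingHom ℚ))⁄(AlgebraicClosure ℚ)).Point,
      ¬ IsSingPt A.valuation P → ¬ IsSingPt A.valuation Q → ¬ IsSingPt A.valuation (P + Q) := by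
    intro P Q hP hQ
    rw [not_isSingPt_iff_inE0v] at hP hQ ⊢
    exact inE0v_add hint hP hQ
  -- `σ` fixes the coefficients
  have c : ∀ a : ℚ, σ (algebraMap ℚ (AlgebraicClosure ℚ) a) = algebraMap ℚ (AlgebraicClosure ℚ) a :=
    fun a => σ.commutes a
  have c₁ : (σ : AlgebraicClosure ℚ →+* AlgebraicClosure ℚ)
      ((W.map (Int.castRingHom ℚ))⁄(AlgebraicClosure ℚ)).a₁
      = ((W.map (Int.castRingHom ℚ))⁄(AlgebraicClosure ℚ)).a₁ := c _
  have c₂ : (σ : AlgebraicClosure ℚ →+* AlgebraicClosure ℚ)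
      ((W.map (Int.castRingHom ℚ))⁄(AlgebraicClosure ℚ)).a₂
      = ((W.map (Int.castRingHom ℚ))⁄(AlgebraicClosure ℚ)).a₂ := c _
  have c₃ : (σ : AlgebraicClosure ℚ →+* AlgebraicClosure ℚ)
      ((W.map (Int.castRingHom ℚ))⁄(AlgebraicClosure ℚ)).a₃
      = ((W.map (Int.castRingHom ℚ))⁄(AlgebraicClosure ℚ)).a₃ := c _
  have c₄ : (σ : AlgebraicClosure ℚ →+* AlgebraicClosure ℚ)
      ((W.map (Int.castRingHom ℚ))⁄(AlgebraicClosure ℚ)).a₄
      = ((W.map (Int.castRingHom ℚ))⁄(AlgebraicClosure ℚ)).a₄ := c _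
  have c₆ : (σ : AlgebraicClosure ℚ →+* AlgebraicClosure ℚ)
      ((W.map (Int.castRingHom ℚ))⁄(AlgebraicClosure ℚ)).a₆
      = ((W.map (Int.castRingHom ℚ))⁄(AlgebraicClosure ℚ)).a₆ := c _
  obtain ⟨hσr, hσt⟩ := hC.map_eq_of_val two_ne_zero
    (σ : AlgebraicClosure ℚ →+* AlgebraicClosure ℚ) c₁ c₂ c₃ c₄ c₆ hσv
  have g₁ : (σ : AlgebraicClosure ℚ →+* AlgebraicClosure ℚ)
      ((transl r t) • ((W.map (Int.castRingHom ℚ))⁄(AlgebraicClosure ℚ))).a₁
      = ((transl r t) • ((W.map (Int.castRingHom ℚ))⁄(AlgebraicClosure ℚ))).a₁ := by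
    rw [transl_a₁]; exact c₁
  have g₂ : (σ : AlgebraicClosure ℚ →+* AlgebraicClosure ℚ)
      ((transl r t) • ((W.map (Int.castRingHom ℚ))⁄(AlgebraicClosure ℚ))).a₂
      = ((transl r t) • ((W.map (Int.castRingHom ℚ))⁄(AlgebraicClosure ℚ))).a₂ := by
    rw [transl_a₂, map_add, map_mul, map_ofNat, c₂, hσr]
  have hαβ : α ≠ β := by
    intro h
    have := nf.vαβ
    rw [h, sub_self, map_zero] at this
    exact zero_ne_one this
  rcases tangent_roots_map_or nf.hsum nf.hprod hαβ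
      (σ : AlgebraicClosure ℚ →+* AlgebraicClosure ℚ) g₁ g₂ with ⟨hσα, hσβ⟩ | ⟨hσα, hσβ⟩
  · left
    intro n hn P hP
    have key := map_sub_not_isSingPt (S := ℚ) A.valuation (W.map (Int.castRingHom ℚ)).toAffine
      ((A.valuation_le_one_iff _).mpr hint.mem_a₁) ((A.valuation_le_one_iff _).mpr hint.mem_a₂)
      ((A.valuation_le_one_iff _).mpr hint.mem_a₃) ((A.valuation_le_one_iff _).mpr hint.mem_a₄)
      ((A.valuation_le_one_iff _).mpr hint.mem_a₆) hC.r_int hC.t_int nf σ.toAlgHom hσv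
      hσr hσt hσα hσβ hE0 hn P hP
    rw [not_isSingPt_iff_inE0v] at key
    exact key
  · right
    intro n hn P hP
    have key := map_add_not_isSingPt (S := ℚ) A.valuation (W.map (Int.castRingHom ℚ)).toAffine
      ((A.valuation_le_one_iff _).mpr hint.mem_a₁) ((A.valuation_le_one_iff _).mpr hint.mem_a₂)
      ((A.valuation_le_one_iff _).mpr hint.mem_a₃) ((A.valuation_le_one_iff _).mpr hint.mem_a₄)
      ((A.valuation_le_one_iff _).mpr hint.mem_a₆) hC.r_int hC.t_int nf σ.toAlgHom hσv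
      hσr hσt hσα hσβ hE0 hn P hP
    rw [not_isSingPt_iff_inE0v] at key
    exact key

/-- for `σ` in the inertia group and `P` of odd order, `σ P - P` has nonsingular reduction
(no condition on the residue characteristic) -/
theorem inertia_sub_inE0v (σ : AlgebraicClosure ℚ ≃ₐ[ℚ] AlgebraicClosure ℚ)
    (hσ : σ ∈ A.inertiaSubgroupIn ℚ) {n : ℕ} (hn : Odd n)
    (P : ((W.map (Int.castRingHom ℚ))⁄(AlgebraicClosure ℚ)).Point) (hP : n • P = 0) :
    InE0v A (σ • P - P) := by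
  obtain ⟨r, t, α, β, hr, ht, nf, hfix⟩ := exists_nodalNF W hΔ hc₄ A hA
  obtain ⟨hσr, hσt, hσα, hσβ⟩ := hfix σ hσ
  have hint := intCoeff_map_int W A
  have hσd : σ ∈ A.decompositionSubgroup ℚ := inertiaIn_mem_decomp A σ hσ
  have : Algebra.IsAlgebraic ℚ (AlgebraicClosure ℚ) := AlgebraicClosure.isAlgebraic ℚ
  have hσv : ∀ a : AlgebraicClosure ℚ, A.valuation (σ.toAlgHom a) = A.valuation a :=
    fun a => Fermat.Agent.S13Two.decomp_val_eq A σ hσd a
  have hE0 : ∀ P Q : ((W.map (Int.castRingHom ℚ))⁄(AlgebraicClosure ℚ)).Point,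
      ¬ IsSingPt A.valuation P → ¬ IsSingPt A.valuation Q → ¬ IsSingPt A.valuation (P + Q) := by
    intro P Q hP hQ
    rw [not_isSingPt_iff_inE0v] at hP hQ ⊢
    exact inE0v_add hint hP hQ
  have key := map_sub_not_isSingPt (S := ℚ) A.valuation (W.map (Int.castRingHom ℚ)).toAffine
    ((A.valuation_le_one_iff _).mpr hint.mem_a₁) ((A.valuation_le_one_iff _).mpr hint.mem_a₂)
    ((A.valuation_le_one_iff _).mpr hint.mem_a₃) ((A.valuation_le_one_iff _).mpr hint.mem_a₄)
    ((A.valuation_le_one_iff _).mpr hint.mem_a₆) hr ht nf σ.toAlgHom hσv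
    hσr hσt hσα hσβ hE0 hn P hP
  rw [not_isSingPt_iff_inE0v] at key
  exact key

end

end Fermat.Agent.MultRed
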