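/-
MultRed MR5 piece P2 (helper75): at a place of residue characteristic `p`, on a curve in nodal
normal form, every `p`-power torsion point which does not reduce to the node lies in the kernel
of reduction: `E0[p^k] ⊆ E1`.
-/
import Mathlib
import Fermat.Agent.Lib.MultRed.Char
import Fermat.Agent.Lib.MultRed.Red0
import Fermat.Agent.Lib.MultRed.Core

set_option autoImplicit false
set_option linter.unusedSectionVars false

namespace Fermat.Agent.MultRed

open WeierstrassCurve WeierstrassCurve.Affine IsLocalRing S05H5 S05H65 S05H75 Fermat.Agent.EllRed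

variable {K : Type*} [Field K] [DecidableEq K] {A : ValuationSubring K} {E : Affine K} {α β : K}

/-- the coefficients of a nodal normal form are integral -/
lemma NodalNF.intCoeff (nf : NodalNF A.valuation E α β) : IntCoeff A E where
  mem_a₁ := (A.valuation_le_one_iff _).mp nf.va₁
  mem_a₂ := (A.valuation_le_one_iff _).mp nf.va₂
  mem_a₃ := by rw [nf.a₃]; exact A.zero_mem
  mem_a₄ := by rw [nf.a₄]; exact A.zero_mem
  mem_a₆ := (A.valuation_le_one_iff _).mp nf.va₆.le

/-- the reduction of a nodal normal form is a nodal cubic -/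
lemma NodalNF.nodeCubic (nf : NodalNF A.valuation E α β) :
    NodeCubic (redCurve A E) (res A α) (res A β) where
  a₃ := by
    show res A E.a₃ = 0
    rw [nf.a₃, res_zero]
  a₄ := by
    show res A E.a₄ = 0
    rw [nf.a₄, res_zero]
  a₆ := by
    show res A E.a₆ = 0
    rw [res_eq_zero_iff ((A.valuation_le_one_iff _).mp nf.va₆.le)]
    exact nf.va₆
  hsum := by
    show res A α + res A β = -res A E.a₁
    have hα := (A.valuation_le_one_iff _).mp nf.vα
    have hβ := (A.valuation_le_one_iff _).mp nf.vβ
    have ha₁ := (A.valuation_le_one_iff _).mp nf.va₁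
    rw [← res_add hα hβ, ← res_neg ha₁, nf.hsum]
  hprod := by
    show res A α * res A β = -res A E.a₂
    have hα := (A.valuation_le_one_iff _).mp nf.vα
    have hβ := (A.valuation_le_one_iff _).mp nf.vβ
    have ha₂ := (A.valuation_le_one_iff _).mp nf.va₂
    rw [← res_mul hα hβ, ← res_neg ha₂, nf.hprod]
  hne := by
    have hα := (A.valuation_le_one_iff _).mp nf.vα
    have hβ := (A.valuation_le_one_iff _).mp nf.vβ
    intro h
    rw [res_eq_iff hα hβ, nf.vαβ] at h
    exact lt_irrefl _ h

/-- a point which does not reduce to the node has nonsingular reduction -/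
lemma NodalNF.inE0_of_not_isNodePt [DecidableEq (ResidueField A)]
    (nf : NodalNF A.valuation E α β) {P : E.Point}
    (hP : ¬ IsNodePt A.valuation P) : InE0 A (redCurve A E) P := by
  rcases P with _ | ⟨x, y, hxy⟩
  · exact inE0_zero
  · by_cases hx : A.valuation x ≤ 1
    · have hxA : x ∈ A := (A.valuation_le_one_iff _).mp hx
      have hint := nf.intCoeff
      have hyA : y ∈ A := (isReduction_redCurve hint).mem_y hxy.1 hxA
      have hy : A.valuation y ≤ 1 := (A.valuation_le_one_iff _).mpr hyA
      refine Or.inr ⟨x, y, hxy, rfl, hxA, ?_⟩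
      rw [nonsingular_res_iff hint hxy.1 hxA]
      rintro ⟨hFx, hFy⟩
      exact hP (isNode_of_singular nf hxy.1 hx hy hFx hFy)
    · exact Or.inl (Or.inr (by rw [px_some]; exact not_le.mp hx))

/-- the residue field has characteristic `p` -/
lemma charP_resField_of_val {p : ℕ} (hp : p.Prime) (hvp : A.valuation (p : K) < 1) :
    CharP (ResidueField A) p := by
  rw [CharP.charP_iff_prime_eq_zero hp, ← res_natCast (A := A), res_eq_zero_iff (natCast_mem A p)]
  exact hvp

/-- **`E0[p^k] ⊆ E1`** in nodal normal form at a place of residue characteristic `p`. -/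
theorem NodalNF.inG1_of_pow_smul (nf : NodalNF A.valuation E α β) {p : ℕ} [Fact p.Prime]
    (hvp : A.valuation (p : K) < 1) (k : ℕ) {P : E.Point} (hns : ¬ IsNodePt A.valuation P)
    (hP : (p ^ k) • P = 0) : InG1 A.valuation P := by
  classical
  have : CharP (ResidueField A) p := charP_resField_of_val Fact.out hvp
  have h := isReduction_redCurve nf.intCoeff
  exact inG1_of_nsmul_eq_zero h (fun Q hQ => nf.nodeCubic.eq_zero_of_pow_smul p k hQ)
    (nf.inE0_of_not_isNodePt hns) hP

end Fermat.Agent.MultRed
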