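import Mathlib
import Fermat.Agent.Lib.TateModule.Seq

/-!
# MultRed / TateSub (MR5, ASM part 1; owner: helper4)

For a subgroup `H` of an abelian group `J`: the submodule `tateSub p H` of the Tate module
`tateSeq p J` of compatible sequences with all entries in `H`.  It is saturated, stable under
every automorphism preserving `H`, and `≠ ⊤` as soon as some `p ^ n`-torsion point is not in `H`.
-/

set_option autoImplicit false

namespace Fermat.Agent.MultRed

open Fermat.Agent.TateModule

variable (p : ℕ) [hp : Fact p.Prime] {J : Type*} [AddCommGroup J]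

/-- compatible sequences with all entries in `H` -/
def tateSub (H : AddSubgroup J) : Submodule ℤ_[p] (tateSeq p J) where
  carrier := {x | ∀ n, x.1 n ∈ H}
  zero_mem' := fun _ => H.zero_mem
  add_mem' := fun hx hy n => H.add_mem (hx n) (hy n)
  smul_mem' := fun c x hx n => by
    rw [tateSeq_smul_apply]
    exact H.nsmul_mem (hx n) _

variable {p}

theorem mem_tateSub {H : AddSubgroup J} {x : tateSeq p J} :
    x ∈ tateSub p H ↔ ∀ n, x.1 n ∈ H := Iff.rfl

/-- `tateSub p H` is saturated -/
theorem tateSub_saturated (H : AddSubgroup J) {x : tateSeq p J}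
    (hx : (p : ℤ_[p]) • x ∈ tateSub p H) : x ∈ tateSub p H := by
  intro n
  have h := hx (n + 1)
  rw [tateSeq_natCast_smul_apply, tateSeq_succ] at h
  exact h

theorem tateSub_ne_top (H : AddSubgroup J) (hdiv : ∀ y : J, ∃ z : J, p • z = y) {n : ℕ} {P : J}
    (hP : p ^ n • P = 0) (hPH : P ∉ H) : tateSub p H ≠ ⊤ := by
  intro htop
  have hmem : P ∈ Submodule.torsionBy ℤ J ((p ^ n : ℕ) : ℤ) := by
    rw [Submodule.mem_torsionBy_iff, natCast_zsmul]; exact hP
  obtain ⟨x, hx⟩ := tateRed_surjective hdiv n ⟨P, hmem⟩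
  have hxn : x.1 n = P := congrArg Subtype.val hx
  have : x ∈ tateSub p H := by rw [htop]; exact Submodule.mem_top
  exact hPH (hxn ▸ this n)

section Action

variable {G : Type*} [Group G] [DistribMulAction G J]

theorem tateSeqRep_mem_tateSub (H : AddSubgroup J) {σ : G} (hσ : ∀ y ∈ H, σ • y ∈ H)
    {x : tateSeq p J} (hx : x ∈ tateSub p H) : tateSeqRep p J σ x ∈ tateSub p H :=
  fun n => hσ _ (hx n)

/-- if `σ y - ε y ∈ H` for all `p`-power torsion `y`, then `σ x - ε x ∈ tateSub p H` -/
theorem tateSeqRep_sub_mem_tateSub (H : AddSubgroup J) {σ : G}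
    (hσ : ∀ (n : ℕ) (y : J), p ^ n • y = 0 → σ • y - y ∈ H) (x : tateSeq p J) :
    tateSeqRep p J σ x - x ∈ tateSub p H :=
  fun n => hσ n _ (tateSeq_pow_smul_self x n)

theorem tateSeqRep_add_mem_tateSub (H : AddSubgroup J) {σ : G}
    (hσ : ∀ (n : ℕ) (y : J), p ^ n • y = 0 → σ • y + y ∈ H) (x : tateSeq p J) :
    tateSeqRep p J σ x + x ∈ tateSub p H :=
  fun n => hσ n _ (tateSeq_pow_smul_self x n)

end Action

end Fermat.Agent.MultRed
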