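import Mathlib
import Fermat.Prelude.Def_GaloisRep_StrictOrdinary
import Fermat.Agent.Lib.MultRed.TateSub
import Fermat.Agent.Lib.MultRed.E0TorsQbar
import Fermat.Agent.Lib.MultRed.InertiaCyclo
import Fermat.Agent.Lib.MultRed.SatLine
import Fermat.Agent.Lib.TateModule.Model
import Fermat.Agent.Lib.Cyclo.ModChar

/-!
# MultRed / StrictOrd (MR5, assembly; owner: helper4)

For `W / ℤ` with multiplicative reduction at an odd prime `p`, the `p`-adic Tate module of `W` is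
strictly ordinary at `p` (Prelude `GaloisRepAdic.IsStrictOrdinaryAt`).

The line `L` is the submodule of compatible sequences of `p`-power torsion points lying in the
kernel of reduction at `A ∣ p`.  Inputs: helper75 (`E0[p^k] ⊆ E1`, `E[p] ⊄ E1`), helper78
(an inertia element acting non-trivially on `μ_p`), helper51 (saturated lines), helper72
(`det = ` cyclotomic character), helper4 (the decomposition group acts on `E / E0` by a sign).
-/

set_option autoImplicit false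
set_option linter.unusedSectionVars false
set_option linter.style.haveILetI false

open WeierstrassCurve WeierstrassCurve.Affine

namespace Fermat.Agent.MultRed

open S05H5 S05H65 S05H75 Fermat.Agent.TateModule

section G1

variable (W : WeierstrassCurve ℤ) [DecidableEq (AlgebraicClosure ℚ)]
  (A : ValuationSubring (AlgebraicClosure ℚ))

/-- the kernel of reduction at `A` as a subgroup of `E(ℚ̄)` -/
def kerRedSubgroup : AddSubgroup ((W.map (Int.castRingHom ℚ))⁄(AlgebraicClosure ℚ)).Point where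
  carrier := {P | InG1 A.valuation P}
  zero_mem' := Or.inl rfl
  add_mem' := fun {P Q} hP hQ => by
    have h := isReduction_redCurve (intCoeff_map_int W A)
    exact inG1_add A.valuation h.val_b₂ h.val_b₄ h.val_b₆ h.val_b₈ hP hQ
  neg_mem' := fun {P} hP => inG1_neg A.valuation hP

theorem mem_kerRedSubgroup {P : ((W.map (Int.castRingHom ℚ))⁄(AlgebraicClosure ℚ)).Point} :
    P ∈ kerRedSubgroup W A ↔ InG1 A.valuation P := Iff.rfl

/-- the decomposition group preserves the kernel of reduction -/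
theorem inG1_smul_of_mem_decomp (σ : AlgebraicClosure ℚ ≃ₐ[ℚ] AlgebraicClosure ℚ)
    (hσ : σ ∈ A.decompositionSubgroup ℚ)
    {P : ((W.map (Int.castRingHom ℚ))⁄(AlgebraicClosure ℚ)).Point} (hP : InG1 A.valuation P) :
    InG1 A.valuation (σ • P) := by
  have : Algebra.IsAlgebraic ℚ (AlgebraicClosure ℚ) := AlgebraicClosure.isAlgebraic ℚ
  rcases P with _ | ⟨x, y, h⟩
  · exact Or.inl rfl
  · rcases hP with h0 | hlt
    · exact absurd h0 (Point.some_ne_zero h)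
    · right
      obtain ⟨h', hmap⟩ : ∃ h', σ • (Point.some x y h :
            ((W.map (Int.castRingHom ℚ))⁄(AlgebraicClosure ℚ)).Point)
          = Point.some (σ x) (σ y) h' := ⟨_, Point.map_some σ.toAlgHom h⟩
      rw [hmap, px_some]
      rw [Fermat.Agent.S13Two.decomp_val_eq A σ hσ x]
      exact hlt

end G1

section Main

variable (W : WeierstrassCurve ℤ) (p : ℕ) [Fact p.Prime] [DecidableEq (AlgebraicClosure ℚ)]

/-- the line of the ordinary filtration: compatible sequences in the kernel of reduction -/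
noncomputable def ordLine (A : ValuationSubring (AlgebraicClosure ℚ))
    (hΔ0 : (W.map (Int.castRingHom ℚ)).Δ ≠ 0) :
    Submodule ℤ_[p] (tateRep (W.map (Int.castRingHom ℚ)) p hΔ0).V :=
  tateSub p (kerRedSubgroup W A)

variable (hp2 : p ≠ 2) (hΔ0 : (W.map (Int.castRingHom ℚ)).Δ ≠ 0) (hΔ : (p : ℤ) ∣ W.Δ)
  (hc₄ : ¬ (p : ℤ) ∣ W.c₄) (A : ValuationSubring (AlgebraicClosure ℚ)) (hA : A.LiesOverPrime p)

include hp2 hΔ hc₄ hA

theorem ordLine_inertia (σ : AlgebraicClosure ℚ ≃ₐ[ℚ] AlgebraicClosure ℚ)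
    (hσ : σ ∈ A.inertiaSubgroupIn ℚ) (v : (tateRep (W.map (Int.castRingHom ℚ)) p hΔ0).V) :
    (tateRep (W.map (Int.castRingHom ℚ)) p hΔ0).ρ σ v - v ∈ ordLine W p A hΔ0 :=
  tateSeqRep_sub_mem_tateSub (kerRedSubgroup W A)
    (fun n y hy => inertia_sub_inG1 W hΔ hc₄ A hA hp2 σ hσ n y hy) v

omit hp2 in
theorem ordLine_ne_top : ordLine W p A hΔ0 ≠ ⊤ := by
  obtain ⟨P, hP, hPn⟩ := exists_torsion_not_inG1 W hΔ0 hΔ hc₄ A hA
  refine tateSub_ne_top (kerRedSubgroup W A) (p_divisible p hΔ0) (n := 1) ?_ hPn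
  rw [pow_one]; exact hP

omit hp2 hΔ hc₄ hA in
theorem ordLine_decomp (σ : AlgebraicClosure ℚ ≃ₐ[ℚ] AlgebraicClosure ℚ)
    (hσ : σ ∈ A.decompositionSubgroup ℚ) (v : (tateRep (W.map (Int.castRingHom ℚ)) p hΔ0).V)
    (hv : v ∈ ordLine W p A hΔ0) :
    (tateRep (W.map (Int.castRingHom ℚ)) p hΔ0).ρ σ v ∈ ordLine W p A hΔ0 :=
  tateSeqRep_mem_tateSub (kerRedSubgroup W A)
    (fun _ hy => inG1_smul_of_mem_decomp W A σ hσ hy) hv

theorem ordLine_ne_bot : ordLine W p A hΔ0 ≠ ⊥ := by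
  intro hL
  have hp : p.Prime := Fact.out
  obtain ⟨σ, hσ, hσa⟩ := exists_inertia_cycExp_ne_one p hp2 A hA
  have h1 : (tateRep (W.map (Int.castRingHom ℚ)) p hΔ0).ρ σ = 1 := by
    apply LinearMap.ext
    intro v
    have := ordLine_inertia W p hp2 hΔ0 hΔ hc₄ A hA σ hσ v
    rw [hL, Submodule.mem_bot, sub_eq_zero] at this
    exact this
  have hdet : (tateRep (W.map (Int.castRingHom ℚ)) p hΔ0).DetIsCyclotomic p := by
    have hΔZ : W.Δ ≠ 0 := by
      intro h0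
      apply hΔ0
      rw [WeierstrassCurve.map_Δ, h0, map_zero]
    exact tateRepOfModel_detIsCyclotomic (W := W) (p := p) hΔZ
  haveI : NeZero (p ^ 1) := ⟨pow_ne_zero _ hp.ne_zero⟩
  set a : ℕ := ((Fermat.Agent.Cyclo.modChar (p ^ 1) σ : (ZMod (p ^ 1))ˣ) : ZMod (p ^ 1)).val
    with ha
  have hspec : ∀ μ : AlgebraicClosure ℚ, μ ^ p ^ 1 = 1 → σ μ = μ ^ a :=
    fun μ hμ => Fermat.Agent.Cyclo.modChar_spec (p ^ 1) σ hμ
  have hmem := hdet.2 1 σ a hspec
  rw [h1, map_one, Ideal.mem_span_singleton, pow_one] at hmem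
  apply hσa a hspec
  have h2 : (p : ℤ_[p]) ∣ (((1 - (a : ℤ) : ℤ)) : ℤ_[p]) := by
    push_cast
    exact hmem
  have h3 : (p : ℤ) ∣ 1 - (a : ℤ) :=
    (PadicInt.norm_int_lt_one_iff_dvd _).mp ((PadicInt.norm_lt_one_iff_dvd _).mpr h2)
  exact (dvd_sub_comm).mp h3

omit hp2 hΔ hc₄ hA in
theorem tateRep_detIsCyclotomic_of_model :
    (tateRep (W.map (Int.castRingHom ℚ)) p hΔ0).DetIsCyclotomic p := by
  have hΔZ : W.Δ ≠ 0 := by
    intro h0
    apply hΔ0
    rw [WeierstrassCurve.map_Δ, h0, map_zero]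
  exact tateRepOfModel_detIsCyclotomic (W := W) (p := p) hΔZ

/-- **MR5**: for `W / ℤ` with multiplicative reduction at an odd prime `p`, the `p`-adic Tate
module of `W` is strictly ordinary at `p`. -/
theorem tateRep_isStrictOrdinaryAt_of_mult' :
    ∃ L : Submodule ℤ_[p] (tateRep (W.map (Int.castRingHom ℚ)) p hΔ0).V,
      (∃ b : Module.Basis (Fin 2) ℤ_[p] (tateRep (W.map (Int.castRingHom ℚ)) p hΔ0).V,
        L = Submodule.span ℤ_[p] {b 0}) ∧
      (∀ σ ∈ A.decompositionSubgroup ℚ, ∀ v ∈ L,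
        (tateRep (W.map (Int.castRingHom ℚ)) p hΔ0).ρ σ v ∈ L) ∧
      (∀ σ ∈ A.inertiaSubgroupIn ℚ, ∀ v : (tateRep (W.map (Int.castRingHom ℚ)) p hΔ0).V,
        (tateRep (W.map (Int.castRingHom ℚ)) p hΔ0).ρ σ v - v ∈ L) ∧
      (∀ σ ∈ A.decompositionSubgroup ℚ, ∃ x z : ℤ_[p],
        (∀ w ∈ L, (tateRep (W.map (Int.castRingHom ℚ)) p hΔ0).ρ σ w = x • w) ∧
        (∀ v : (tateRep (W.map (Int.castRingHom ℚ)) p hΔ0).V,
          (tateRep (W.map (Int.castRingHom ℚ)) p hΔ0).ρ σ v - z • v ∈ L) ∧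
        ∀ (n a : ℕ), (∀ μ : AlgebraicClosure ℚ, μ ^ p ^ n = 1 → σ μ = μ ^ a) →
          x - (a : ℤ_[p]) * z ∈ Ideal.span {((p ^ n : ℕ) : ℤ_[p])}) := by
  have hbot := ordLine_ne_bot W p hp2 hΔ0 hΔ hc₄ A hA
  have htop := ordLine_ne_top W p hΔ0 hΔ hc₄ A hA
  have hdet := tateRep_detIsCyclotomic_of_model W p hΔ0
  obtain ⟨b, hb⟩ := exists_basis_of_saturated_padic p
    (tateRep (W.map (Int.castRingHom ℚ)) p hΔ0).finrank_eq (ordLine W p A hΔ0)
    (fun x hx => tateSub_saturated (kerRedSubgroup W A) hx) hbot htop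
  have hD : ∀ σ ∈ A.decompositionSubgroup ℚ, ∀ v ∈ ordLine W p A hΔ0,
      (tateRep (W.map (Int.castRingHom ℚ)) p hΔ0).ρ σ v ∈ ordLine W p A hΔ0 :=
    fun σ hσ v hv => ordLine_decomp W p hΔ0 A σ hσ v hv
  refine ⟨ordLine W p A hΔ0, ⟨b, hb⟩, hD,
    fun σ hσ v => ordLine_inertia W p hp2 hΔ0 hΔ hc₄ A hA σ hσ v, fun σ hσ => ?_⟩
  have key : ∀ ε : ℤ_[p], ε * ε = 1 →
      (∀ v : (tateRep (W.map (Int.castRingHom ℚ)) p hΔ0).V,
        (tateRep (W.map (Int.castRingHom ℚ)) p hΔ0).ρ σ v - ε • v ∈ ordLine W p A hΔ0) →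
      ∃ x z : ℤ_[p],
        (∀ w ∈ ordLine W p A hΔ0, (tateRep (W.map (Int.castRingHom ℚ)) p hΔ0).ρ σ w = x • w) ∧
        (∀ v : (tateRep (W.map (Int.castRingHom ℚ)) p hΔ0).V,
          (tateRep (W.map (Int.castRingHom ℚ)) p hΔ0).ρ σ v - z • v ∈ ordLine W p A hΔ0) ∧
        ∀ (n a : ℕ), (∀ μ : AlgebraicClosure ℚ, μ ^ p ^ n = 1 → σ μ = μ ^ a) →
          x - (a : ℤ_[p]) * z ∈ Ideal.span {((p ^ n : ℕ) : ℤ_[p])} := by
    intro ε hε2 hε
    obtain ⟨x, z, hx, hz, hxz⟩ := exists_scalars_strictOrd b (ordLine W p A hΔ0) hb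
      ((tateRep (W.map (Int.castRingHom ℚ)) p hΔ0).ρ σ) (hD σ hσ) ε hε2 hε
    exact ⟨x, z, hx, hz, fun n a ha => hxz _ _ (hdet.2 n σ a ha)⟩
  rcases decomp_sign_inG1 W hΔ hc₄ A hA hp2 σ hσ with h | h
  · refine key 1 (one_mul 1) (fun v => ?_)
    rw [one_smul]
    exact tateSeqRep_sub_mem_tateSub (kerRedSubgroup W A) h v
  · refine key (-1) (by ring) (fun v => ?_)
    rw [neg_one_smul, sub_neg_eq_add]
    exact tateSeqRep_add_mem_tateSub (kerRedSubgroup W A) h v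

end Main

/-- **MR5**: for `W / ℤ` with multiplicative reduction at an odd prime `p`, the `p`-adic Tate
module of `W` is strictly ordinary at `p`. -/
theorem tateRep_isStrictOrdinaryAt_of_mult (W : WeierstrassCurve ℤ) {p : ℕ} [Fact p.Prime]
    (hp2 : p ≠ 2) (hΔ0 : (W.map (Int.castRingHom ℚ)).Δ ≠ 0) (hΔ : (p : ℤ) ∣ W.Δ)
    (hc₄ : ¬ (p : ℤ) ∣ W.c₄) [DecidableEq (AlgebraicClosure ℚ)] :
    (tateRep (W.map (Int.castRingHom ℚ)) p hΔ0).IsStrictOrdinaryAt p := by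
  refine ⟨?_, fun A hA => tateRep_isStrictOrdinaryAt_of_mult' W p hp2 hΔ0 hΔ hc₄ A hA⟩
  rw [PadicInt.maximalIdeal_eq_span_p]
  exact Ideal.subset_span rfl

/-- ordinary at `p` (Prelude `IsOrdinaryAt`) -/
theorem tateRep_isOrdinaryAt_of_mult (W : WeierstrassCurve ℤ) {p : ℕ} [Fact p.Prime]
    (hp2 : p ≠ 2) (hΔ0 : (W.map (Int.castRingHom ℚ)).Δ ≠ 0) (hΔ : (p : ℤ) ∣ W.Δ)
    (hc₄ : ¬ (p : ℤ) ∣ W.c₄) [DecidableEq (AlgebraicClosure ℚ)] :
    (tateRep (W.map (Int.castRingHom ℚ)) p hΔ0).IsOrdinaryAt p :=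
  (tateRep_isStrictOrdinaryAt_of_mult W hp2 hΔ0 hΔ hc₄).isOrdinaryAt

end Fermat.Agent.MultRed
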