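import Mathlib
import Fermat.Agent.Lib.MultRed.Main
import Fermat.Agent.Lib.TateModule.Local

/-!
# MultRed / Tate (MR4): the Tate module of a curve with multiplicative reduction at `q ≠ p`
has unipotent inertia at `q` (`p` odd).
-/

set_option autoImplicit false

open WeierstrassCurve WeierstrassCurve.Affine

namespace Fermat.Agent.MultRed

/-- pointwise form: `σ (σ y - y) = σ y - y` on `n`-torsion, `n` odd and prime to `q` -/
theorem inertia_smul_sub_eq (W : WeierstrassCurve ℤ) {q : ℕ} [Fact q.Prime] (hΔ : (q : ℤ) ∣ W.Δ)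
    (hc₄ : ¬ (q : ℤ) ∣ W.c₄) [DecidableEq (AlgebraicClosure ℚ)]
    (A : ValuationSubring (AlgebraicClosure ℚ)) (hA : A.LiesOverPrime q)
    (σ : AlgebraicClosure ℚ ≃ₐ[ℚ] AlgebraicClosure ℚ) (hσ : σ ∈ A.inertiaSubgroupIn ℚ)
    {n : ℕ} (hn : Odd n) (hqn : ¬ q ∣ n)
    (P : ((W.map (Int.castRingHom ℚ))⁄(AlgebraicClosure ℚ)).Point) (hP : n • P = 0) :
    σ • (σ • P - P) = σ • P - P := by
  have h := inertia_unipotent W hΔ hc₄ A hA σ hσ hn hqn P hP
  rw [smul_sub, ← sub_eq_zero]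
  rw [← h]
  abel

/-- **MR4**: for `p` odd and `q ≠ p` a prime of multiplicative reduction of `W`, the `p`-adic Tate
module of `W` is unipotent on inertia at `q`. -/
theorem tateRep_isUnipotentOnInertiaAt_of_mult (W : WeierstrassCurve ℤ) {p q : ℕ} [Fact p.Prime]
    [Fact q.Prime] (hp2 : p ≠ 2) (hqp : q ≠ p)
    (hΔ0 : (W.map (Int.castRingHom ℚ)).Δ ≠ 0) (hΔ : (q : ℤ) ∣ W.Δ) (hc₄ : ¬ (q : ℤ) ∣ W.c₄)
    [DecidableEq (AlgebraicClosure ℚ)] :
    (Fermat.Agent.TateModule.tateRep (W.map (Int.castRingHom ℚ)) p hΔ0).IsUnipotentOnInertiaAt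
      q := by
  have hp : p.Prime := Fact.out
  have hq : q.Prime := Fact.out
  refine Fermat.Agent.TateModule.tateRep_isUnipotentOnInertiaAt_of_fix hΔ0 q ?_
  intro A hA σ hσ n y hy
  have hodd : Odd (p ^ n) := (hp.odd_of_ne_two hp2).pow
  have hqn : ¬ q ∣ p ^ n := by
    intro h
    exact hqp ((Nat.prime_dvd_prime_iff_eq hq hp).mp (hq.dvd_of_dvd_pow h))
  exact inertia_smul_sub_eq W hΔ hc₄ A hA σ hσ hodd hqn y hy

/-- semistable form: unipotent inertia at every bad prime `q ≠ p`. -/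
theorem tateRep_isUnipotentOnInertiaAt_of_semistable (W : WeierstrassCurve ℤ)
    (hss : ∀ q : ℕ, q.Prime → (q : ℤ) ∣ W.Δ → ¬ (q : ℤ) ∣ W.c₄) {p : ℕ} [Fact p.Prime]
    (hp2 : p ≠ 2) (hΔ0 : (W.map (Int.castRingHom ℚ)).Δ ≠ 0)
    [DecidableEq (AlgebraicClosure ℚ)] {q : ℕ} (hq : q.Prime) (hqp : q ≠ p)
    (hΔ : (q : ℤ) ∣ W.Δ) :
    (Fermat.Agent.TateModule.tateRep (W.map (Int.castRingHom ℚ)) p hΔ0).IsUnipotentOnInertiaAt
      q := by
  haveI : Fact q.Prime := ⟨hq⟩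
  exact tateRep_isUnipotentOnInertiaAt_of_mult W hp2 hqp hΔ0 hΔ (hss q hq hΔ)

end Fermat.Agent.MultRed
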